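import Mathlib

set_option autoImplicit false

/-!
# Reduction of a finite free module along a surjective ring homomorphism

`φ : O →+* R` surjective, `T` a finite free `O`-module, `V` an `R`-module and `π : T →+ V`
a `φ`-semilinear surjection whose kernel is `ker φ • T`.  Then a basis of `T` maps to a basis
of `V`, and traces, determinants and characteristic polynomials of compatible endomorphisms
correspond under `φ`.
-/

noncomputable section

namespace Fermat.Agent.TateModule

open Module

variable {O R : Type*} [CommRing O] [CommRing R] (φ : O →+* R)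
  {T V : Type*} [AddCommGroup T] [Module O T] [AddCommGroup V] [Module R V]
  (π : T →+ V)

/-- `π : T → V` is a reduction map along `φ : O → R`. -/
structure IsReduction : Prop where
  surj_ring : Function.Surjective φ
  surj : Function.Surjective π
  semilinear : ∀ (c : O) (x : T), π (c • x) = φ c • π x
  ker_le : ∀ x, π x = 0 → x ∈ (RingHom.ker φ) • (⊤ : Submodule O T)

variable {φ π}

theorem repr_mem_of_mem_smul_top {ι : Type*} (b : Basis ι O T) (I : Ideal O) {x : T}
    (hx : x ∈ I • (⊤ : Submodule O T)) (i : ι) : b.repr x i ∈ I := by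
  refine Submodule.smul_induction_on hx ?_ ?_
  · intro a ha y _
    rw [map_smul, Finsupp.smul_apply, smul_eq_mul]
    exact I.mul_mem_right _ ha
  · intro y z hy hz
    rw [map_add, Finsupp.add_apply]
    exact I.add_mem hy hz

namespace IsReduction

variable (h : IsReduction φ π)
include h

theorem map_sum_smul {ι : Type*} (s : Finset ι) (c : ι → O) (x : ι → T) :
    π (∑ i ∈ s, c i • x i) = ∑ i ∈ s, φ (c i) • π (x i) := by
  rw [map_sum]
  exact Finset.sum_congr rfl fun i _ => h.semilinear _ _

theorem linearIndependent {ι : Type*} [Fintype ι] (b : Basis ι O T) :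
    LinearIndependent R (fun i => π (b i)) := by
  rw [Fintype.linearIndependent_iff]
  intro g hg i
  choose c hc using fun i => h.surj_ring (g i)
  have h1 : π (∑ i, c i • b i) = 0 := by
    rw [h.map_sum_smul]
    simp only [hc]
    exact hg
  have h2 := repr_mem_of_mem_smul_top b _ (h.ker_le _ h1) i
  have h3 : b.repr (∑ i, c i • b i) i = c i := by
    rw [Basis.repr_sum_self]
  rw [h3, RingHom.mem_ker, hc] at h2
  exact h2

theorem span_eq_top {ι : Type*} [Fintype ι] (b : Basis ι O T) :
    ⊤ ≤ Submodule.span R (Set.range fun i => π (b i)) := by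
  intro v _
  obtain ⟨x, rfl⟩ := h.surj v
  have hx : x = ∑ i, b.repr x i • b i := (b.sum_repr x).symm
  rw [hx, h.map_sum_smul]
  exact Submodule.sum_mem _ fun i _ =>
    Submodule.smul_mem _ _ (Submodule.subset_span (Set.mem_range_self i))

/-- The image of a basis under a reduction map. -/
def basis {ι : Type*} [Fintype ι] (b : Basis ι O T) : Basis ι R V :=
  Basis.mk (h.linearIndependent b) (h.span_eq_top b)

@[simp] theorem basis_apply {ι : Type*} [Fintype ι] (b : Basis ι O T) (i : ι) :
    h.basis b i = π (b i) := by
  simp [basis]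

theorem basis_repr {ι : Type*} [Fintype ι] (b : Basis ι O T) (x : T) (i : ι) :
    (h.basis b).repr (π x) i = φ (b.repr x i) := by
  have hx : π x = ∑ j, φ (b.repr x j) • h.basis b j := by
    conv_lhs => rw [← b.sum_repr x]
    rw [h.map_sum_smul]
    simp only [h.basis_apply]
  rw [hx, Basis.repr_sum_self]

theorem toMatrix_eq {ι : Type*} [Fintype ι] [DecidableEq ι] (b : Basis ι O T)
    (f : T →ₗ[O] T) (g : V →ₗ[R] V) (hfg : ∀ x, π (f x) = g (π x)) :
    LinearMap.toMatrix (h.basis b) (h.basis b) g = (LinearMap.toMatrix b b f).map φ := by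
  ext i j
  rw [LinearMap.toMatrix_apply, Matrix.map_apply, LinearMap.toMatrix_apply, h.basis_apply,
    ← hfg, h.basis_repr]

theorem free [Module.Free O T] [Module.Finite O T] : Module.Free R V := by
  classical
  exact Module.Free.of_basis (h.basis (Module.Free.chooseBasis O T))

theorem finite [Module.Finite O T] : Module.Finite R V := by
  classical
  obtain ⟨s, hs⟩ := (Module.Finite.fg_top : (⊤ : Submodule O T).FG)
  refine ⟨⟨s.image π, ?_⟩⟩
  rw [eq_top_iff]
  intro v _
  obtain ⟨x, rfl⟩ := h.surj v
  have hx : x ∈ Submodule.span O (s : Set T) := by rw [hs]; exact Submodule.mem_top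
  refine Submodule.span_induction ?_ ?_ ?_ ?_ hx
  · intro y hy
    exact Submodule.subset_span (by
      rw [Finset.coe_image]; exact Set.mem_image_of_mem _ hy)
  · rw [map_zero]; exact Submodule.zero_mem _
  · intro y z _ _ hy hz
    rw [map_add]; exact Submodule.add_mem _ hy hz
  · intro a y _ hy
    rw [h.semilinear]; exact Submodule.smul_mem _ _ hy

theorem trace_eq [Module.Free O T] [Module.Finite O T]
    (f : T →ₗ[O] T) (g : V →ₗ[R] V) (hfg : ∀ x, π (f x) = g (π x)) :
    φ (LinearMap.trace O T f) = LinearMap.trace R V g := by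
  classical
  let b := Module.Free.chooseBasis O T
  rw [LinearMap.trace_eq_matrix_trace O b, LinearMap.trace_eq_matrix_trace R (h.basis b),
    h.toMatrix_eq b f g hfg, Matrix.trace, Matrix.trace, map_sum]
  rfl

theorem det_eq [Module.Free O T] [Module.Finite O T]
    (f : T →ₗ[O] T) (g : V →ₗ[R] V) (hfg : ∀ x, π (f x) = g (π x)) :
    φ (LinearMap.det f) = LinearMap.det g := by
  classical
  let b := Module.Free.chooseBasis O T
  rw [← LinearMap.det_toMatrix b, ← LinearMap.det_toMatrix (h.basis b),
    h.toMatrix_eq b f g hfg, RingHom.map_det, RingHom.mapMatrix_apply]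

theorem charpoly_eq [Module.Free O T] [Module.Finite O T] [Module.Free R V] [Module.Finite R V]
    (f : T →ₗ[O] T) (g : V →ₗ[R] V) (hfg : ∀ x, π (f x) = g (π x)) :
    (LinearMap.charpoly f).map φ = LinearMap.charpoly g := by
  classical
  let b := Module.Free.chooseBasis O T
  rw [← LinearMap.charpoly_toMatrix f b, ← LinearMap.charpoly_toMatrix g (h.basis b),
    h.toMatrix_eq b f g hfg, Matrix.charpoly_map]

theorem finrank_eq [Nontrivial O] [Nontrivial R] [Module.Free O T] [Module.Finite O T] :
    Module.finrank R V = Module.finrank O T := by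
  classical
  let b := Module.Free.chooseBasis O T
  rw [Module.finrank_eq_card_basis b, Module.finrank_eq_card_basis (h.basis b)]

theorem card_eq [Nontrivial O] [Module.Free O T] [Module.Finite O T] [Finite R] :
    Nat.card V = Nat.card R ^ Module.finrank O T := by
  classical
  let b := Module.Free.chooseBasis O T
  rw [Module.finrank_eq_card_basis b]
  have e := (h.basis b).equivFun
  rw [Nat.card_congr e.toEquiv, Nat.card_fun, Nat.card_eq_fintype_card (α := Module.Free.ChooseBasisIndex O T)]

end IsReduction

end Fermat.Agent.TateModule
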