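import Mathlib
import Fermat.Prelude.Thm_IsAdicComplete_of_module_finite
import Fermat.Agent.Lib.TateModule.Reduction

set_option autoImplicit false
set_option linter.unusedSectionVars false
set_option linter.style.haveILetI false
set_option linter.unusedSimpArgs false

/-!
# The `p`-adic Tate module of an abelian group

`J` an abelian group, `p` a prime.  `tateSeq p J` is the group of sequences `x : ℕ → J` with
`x 0 = 0` and `p • x (n+1) = x n`; it is a `ℤ_[p]`-module (`c` acts on the `n`-th entry through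
`c.appr n`), torsion-free and `p`-adically separated.  If `J[p]` is finite it is finite free.
-/

noncomputable section

namespace Fermat.Agent.TateModule

open IsLocalRing

variable (p : ℕ) [hp : Fact p.Prime] (J : Type*) [AddCommGroup J]

/-- Compatible sequences of `p`-power torsion elements. -/
def tateSeq : AddSubgroup (ℕ → J) where
  carrier := {x | x 0 = 0 ∧ ∀ n, p • x (n + 1) = x n}
  zero_mem' := ⟨rfl, fun n => by simp⟩
  add_mem' := by
    rintro x y ⟨hx0, hx⟩ ⟨hy0, hy⟩
    refine ⟨by simp [hx0, hy0], fun n => ?_⟩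
    simp only [Pi.add_apply, smul_add, hx n, hy n]
  neg_mem' := by
    rintro x ⟨hx0, hx⟩
    refine ⟨by simp [hx0], fun n => ?_⟩
    simp only [Pi.neg_apply, smul_neg, hx n]

variable {p J}

theorem tateSeq_zero (x : tateSeq p J) : x.1 0 = 0 := x.2.1

theorem tateSeq_succ (x : tateSeq p J) (n : ℕ) : p • x.1 (n + 1) = x.1 n := x.2.2 n

theorem tateSeq_pow_smul (x : tateSeq p J) (k n : ℕ) : p ^ k • x.1 (n + k) = x.1 n := by
  induction k generalizing n with
  | zero => simp
  | succ k ih =>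
    rw [pow_succ, mul_smul, ← add_assoc, tateSeq_succ, ih]

theorem tateSeq_pow_smul_self (x : tateSeq p J) (n : ℕ) : p ^ n • x.1 n = 0 := by
  have := tateSeq_pow_smul x n 0
  rw [zero_add] at this
  rw [this, tateSeq_zero]

@[simp] theorem tateSeq_add_apply (x y : tateSeq p J) (n : ℕ) : (x + y).1 n = x.1 n + y.1 n := rfl

@[simp] theorem tateSeq_zero_apply (n : ℕ) : (0 : tateSeq p J).1 n = 0 := rfl

@[simp] theorem tateSeq_neg_apply (x : tateSeq p J) (n : ℕ) : (-x).1 n = -x.1 n := rfl

@[simp] theorem tateSeq_sub_apply (x y : tateSeq p J) (n : ℕ) : (x - y).1 n = x.1 n - y.1 n := rfl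

theorem tateSeq_ext {x y : tateSeq p J} (h : ∀ n, x.1 n = y.1 n) : x = y :=
  Subtype.ext (funext h)

/-- Natural numbers congruent modulo `N` act in the same way on `N`-torsion elements. -/
theorem nsmul_eq_of_cast_eq {N k l : ℕ} (h : (k : ZMod N) = l) {y : J} (hy : N • y = 0) :
    k • y = l • y := by
  have h1 : (k : ℤ) ≡ (l : ℤ) [ZMOD (N : ℤ)] := by
    have := (ZMod.natCast_eq_natCast_iff k l N).mp h
    exact Int.natCast_modEq_iff.mpr this
  obtain ⟨m, hm⟩ := h1.symm.dvd
  have h2 : (k : ℤ) • y - (l : ℤ) • y = 0 := by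
    rw [← sub_smul, hm, mul_smul, natCast_zsmul, smul_comm, hy, smul_zero]
  rw [sub_eq_zero, natCast_zsmul, natCast_zsmul] at h2
  exact h2

theorem toZModPow_eq_appr (c : ℤ_[p]) (n : ℕ) :
    PadicInt.toZModPow n c = ((c.appr n : ℕ) : ZMod (p ^ n)) := rfl

theorem appr_succ_smul (c : ℤ_[p]) (n : ℕ) {y : J} (hy : p ^ n • y = 0) :
    c.appr (n + 1) • y = c.appr n • y := by
  apply nsmul_eq_of_cast_eq (N := p ^ n) _ hy
  rw [← toZModPow_eq_appr, ← PadicInt.cast_toZModPow n (n + 1) (Nat.le_succ n) c,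
    toZModPow_eq_appr c (n + 1)]
  rw [ZMod.cast_natCast (pow_dvd_pow p (Nat.le_succ n))]

instance tateSeqSMul : SMul ℤ_[p] (tateSeq p J) :=
  ⟨fun c x => ⟨fun n => c.appr n • x.1 n, by
    refine ⟨by simp [tateSeq_zero], fun n => ?_⟩
    show p • c.appr (n + 1) • x.1 (n + 1) = c.appr n • x.1 n
    rw [smul_comm, tateSeq_succ, appr_succ_smul c n (tateSeq_pow_smul_self x n)]⟩⟩

theorem tateSeq_smul_apply (c : ℤ_[p]) (x : tateSeq p J) (n : ℕ) :
    (c • x).1 n = c.appr n • x.1 n := rfl

theorem tateSeq_smul_apply_of_cast (c : ℤ_[p]) (x : tateSeq p J) (n k : ℕ)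
    (h : PadicInt.toZModPow n c = (k : ZMod (p ^ n))) : (c • x).1 n = k • x.1 n := by
  rw [tateSeq_smul_apply]
  exact nsmul_eq_of_cast_eq (by rw [← toZModPow_eq_appr, h]) (tateSeq_pow_smul_self x n)

instance tateSeqModule : Module ℤ_[p] (tateSeq p J) where
  one_smul x := tateSeq_ext fun n => by
    rw [tateSeq_smul_apply_of_cast 1 x n 1 (by simp), one_smul]
  mul_smul c d x := tateSeq_ext fun n => by
    rw [tateSeq_smul_apply_of_cast (c * d) x n (c.appr n * d.appr n)
      (by rw [map_mul, toZModPow_eq_appr, toZModPow_eq_appr, Nat.cast_mul]), mul_smul]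
    rfl
  smul_zero c := tateSeq_ext fun n => by
    rw [tateSeq_smul_apply]; simp
  smul_add c x y := tateSeq_ext fun n => by
    simp only [tateSeq_smul_apply, tateSeq_add_apply, smul_add]
  add_smul c d x := tateSeq_ext fun n => by
    rw [tateSeq_smul_apply_of_cast (c + d) x n (c.appr n + d.appr n)
      (by rw [map_add, toZModPow_eq_appr, toZModPow_eq_appr, Nat.cast_add]), add_smul]
    rfl
  zero_smul x := tateSeq_ext fun n => by
    rw [tateSeq_smul_apply_of_cast 0 x n 0 (by simp), zero_smul]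
    rfl

theorem tateSeq_natCast_smul_apply (k : ℕ) (x : tateSeq p J) (n : ℕ) :
    ((k : ℤ_[p]) • x).1 n = k • x.1 n :=
  tateSeq_smul_apply_of_cast _ x n k (by simp)

theorem tateSeq_p_pow_smul_apply (k : ℕ) (x : tateSeq p J) (n : ℕ) :
    (((p : ℤ_[p]) ^ k) • x).1 n = p ^ k • x.1 n := by
  have := tateSeq_natCast_smul_apply (p ^ k) x n
  rwa [Nat.cast_pow] at this

/-- The kernel of the evaluation at `m` is `p ^ m • T`. -/
theorem tateSeq_exists_eq_pow_smul (x : tateSeq p J) {m : ℕ} (hm : x.1 m = 0) :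
    ∃ y : tateSeq p J, x = ((p : ℤ_[p]) ^ m) • y := by
  refine ⟨⟨fun n => x.1 (n + m), by simpa using hm, fun n => ?_⟩, ?_⟩
  · have := tateSeq_succ x (n + m)
    show p • x.1 (n + 1 + m) = x.1 (n + m)
    rw [show n + 1 + m = n + m + 1 by ring]
    exact this
  · refine tateSeq_ext fun n => ?_
    rw [tateSeq_p_pow_smul_apply]
    exact (tateSeq_pow_smul x m n).symm

theorem tateSeq_p_pow_smul_apply_self (y : tateSeq p J) (n : ℕ) :
    (((p : ℤ_[p]) ^ n) • y).1 n = 0 := by
  rw [tateSeq_p_pow_smul_apply, tateSeq_pow_smul_self]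

theorem tateSeq_smul_eq_zero {a : ℤ_[p]} (ha : a ≠ 0) {x : tateSeq p J} (hax : a • x = 0) :
    x = 0 := by
  have hspec := PadicInt.unitCoeff_spec ha
  set u := PadicInt.unitCoeff ha
  set k := a.valuation
  have h1 : ((p : ℤ_[p]) ^ k) • x = 0 := by
    have h2 : ((p : ℤ_[p]) ^ k) = (↑u⁻¹ : ℤ_[p]) * a := by
      rw [hspec, ← mul_assoc, Units.inv_mul, one_mul]
    rw [h2, mul_smul, hax, smul_zero]
  refine tateSeq_ext fun n => ?_
  have h3 := congrArg (fun z : tateSeq p J => z.1 (n + k)) h1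
  simp only [tateSeq_p_pow_smul_apply, tateSeq_zero_apply] at h3
  rw [← tateSeq_pow_smul x k n, h3]
  rfl

instance tateSeq_isTorsionFree : Module.IsTorsionFree ℤ_[p] (tateSeq p J) := by
  refine Module.IsTorsionFree.of_smul_eq_zero fun a x hax => ?_
  by_cases ha : a = 0
  · exact Or.inl ha
  · exact Or.inr (tateSeq_smul_eq_zero ha hax)

theorem maximalIdeal_pow_eq_span (n : ℕ) :
    maximalIdeal ℤ_[p] ^ n = Ideal.span {((p : ℤ_[p]) ^ n)} := by
  rw [PadicInt.maximalIdeal_eq_span_p, Ideal.span_singleton_pow]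

theorem mem_maximalIdeal_pow_smul_top_iff {T : Type*} [AddCommGroup T] [Module ℤ_[p] T]
    (n : ℕ) (x : T) :
    x ∈ (maximalIdeal ℤ_[p] ^ n) • (⊤ : Submodule ℤ_[p] T) ↔
      ∃ y : T, x = ((p : ℤ_[p]) ^ n) • y := by
  rw [maximalIdeal_pow_eq_span, Submodule.ideal_span_singleton_smul]
  constructor
  · intro h
    obtain ⟨y, -, hy⟩ := (Submodule.mem_smul_pointwise_iff_exists _ _ _).mp h
    exact ⟨y, hy.symm⟩
  · rintro ⟨y, rfl⟩
    exact Submodule.smul_mem_pointwise_smul _ _ _ Submodule.mem_top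

instance tateSeq_isHausdorff : IsHausdorff (maximalIdeal ℤ_[p]) (tateSeq p J) := by
  refine ⟨fun x hx => ?_⟩
  refine tateSeq_ext fun n => ?_
  have h1 := hx n
  rw [SModEq.zero, mem_maximalIdeal_pow_smul_top_iff] at h1
  obtain ⟨y, rfl⟩ := h1
  exact tateSeq_p_pow_smul_apply_self y n

/-! ### finiteness and freeness -/

theorem tateSeq_finite (hfin : {y : J | p • y = 0}.Finite) :
    Module.Finite ℤ_[p] (tateSeq p J) := by
  classical
  -- the finite set of first entries
  have hfin' : (Set.range fun x : tateSeq p J => x.1 1).Finite := by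
    refine hfin.subset ?_
    rintro _ ⟨x, rfl⟩
    have := tateSeq_pow_smul_self x 1
    rwa [pow_one] at this
  haveI : Fintype (Set.range fun x : tateSeq p J => x.1 1) := hfin'.fintype
  let ι := Set.range fun x : tateSeq p J => x.1 1
  have hex : ∀ i : ι, ∃ t : tateSeq p J, t.1 1 = i.1 := fun i => i.2
  choose t ht using hex
  let f : (ι → ℤ_[p]) →ₗ[ℤ_[p]] tateSeq p J := Fintype.linearCombination ℤ_[p] t
  haveI : IsAdicComplete (maximalIdeal ℤ_[p]) (ι → ℤ_[p]) :=
    IsAdicComplete.of_module_finite (maximalIdeal ℤ_[p]) (ι → ℤ_[p])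
  have hf : Function.Surjective f := by
    apply surjective_of_mkQ_comp_surjective (I := maximalIdeal ℤ_[p])
    intro y
    obtain ⟨y, rfl⟩ := Submodule.mkQ_surjective _ y
    let i : ι := ⟨y.1 1, y, rfl⟩
    refine ⟨Pi.single i 1, ?_⟩
    have h1 : f (Pi.single i 1) = t i := by
      simp only [f, Fintype.linearCombination_apply_single, one_smul]
    have h2 : (y - t i).1 1 = 0 := by
      rw [tateSeq_sub_apply, ht i, sub_self]
    obtain ⟨z, hz⟩ := tateSeq_exists_eq_pow_smul (y - t i) h2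
    have h4 : y - t i ∈ maximalIdeal ℤ_[p] • (⊤ : Submodule ℤ_[p] (tateSeq p J)) := by
      have := (mem_maximalIdeal_pow_smul_top_iff 1 (y - t i)).mpr ⟨z, hz⟩
      rwa [pow_one] at this
    simp only [LinearMap.coe_comp, Function.comp_apply, Submodule.mkQ_apply, h1]
    symm
    rw [Submodule.Quotient.eq]
    exact h4
  exact Module.Finite.of_surjective f hf

theorem tateSeq_free (hfin : {y : J | p • y = 0}.Finite) :
    Module.Free ℤ_[p] (tateSeq p J) := by
  haveI := tateSeq_finite hfin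
  exact Module.free_of_finite_type_torsion_free'

/-! ### reduction maps -/

variable (p J) in
/-- The `n`-th entry as a map to the `p ^ n`-torsion of `J`. -/
def tateRed (n : ℕ) : tateSeq p J →+ Submodule.torsionBy ℤ J ((p ^ n : ℕ) : ℤ) where
  toFun x := ⟨x.1 n, by
    rw [Submodule.mem_torsionBy_iff, natCast_zsmul]; exact tateSeq_pow_smul_self x n⟩
  map_zero' := rfl
  map_add' _ _ := rfl

@[simp] theorem tateRed_coe (n : ℕ) (x : tateSeq p J) : ((tateRed p J n x : _) : J) = x.1 n := rfl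

theorem tateRed_eq_zero_iff (n : ℕ) (x : tateSeq p J) : tateRed p J n x = 0 ↔ x.1 n = 0 := by
  rw [← Subtype.coe_inj]; rfl

theorem tateRed_smul (n : ℕ) [Module (ZMod (p ^ n)) (Submodule.torsionBy ℤ J ((p ^ n : ℕ) : ℤ))]
    (c : ℤ_[p]) (x : tateSeq p J) :
    tateRed p J n (c • x) = PadicInt.toZModPow n c • tateRed p J n x := by
  rw [toZModPow_eq_appr, Nat.cast_smul_eq_nsmul]
  rfl

theorem tateRed_succ (n : ℕ) (x : tateSeq p J) :
    p • (tateRed p J (n + 1) x : J) = (tateRed p J n x : J) := tateSeq_succ x n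

theorem tateSeq_eq_zero_of_tateRed (x : tateSeq p J) (h : ∀ n, tateRed p J n x = 0) : x = 0 :=
  tateSeq_ext fun n => (tateRed_eq_zero_iff n x).mp (h n)

/-- Existence of a compatible sequence through a given `p ^ n`-torsion element. -/
theorem tateRed_surjective (hdiv : ∀ y : J, ∃ z : J, p • z = y) (n : ℕ) :
    Function.Surjective (tateRed p J n) := by
  rintro ⟨a, ha⟩
  rw [Submodule.mem_torsionBy_iff, natCast_zsmul] at ha
  choose d hd using hdiv
  let b : ℕ → J := fun k => Nat.rec a (fun _ y => d y) k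
  have hb0 : b 0 = a := rfl
  have hbs : ∀ k, p • b (k + 1) = b k := fun k => hd (b k)
  refine ⟨⟨fun k => p ^ (n - k) • b (k - n), ?_, ?_⟩, ?_⟩
  · show p ^ (n - 0) • b (0 - n) = 0
    rw [Nat.sub_zero, Nat.zero_sub, hb0, ha]
  · intro k
    show p • p ^ (n - (k + 1)) • b (k + 1 - n) = p ^ (n - k) • b (k - n)
    rcases Nat.lt_or_ge k n with hk | hk
    · rw [show k + 1 - n = 0 by omega, show k - n = 0 by omega, ← mul_smul, ← pow_succ',
        show n - (k + 1) + 1 = n - k by omega]
    · rw [show n - (k + 1) = 0 by omega, show n - k = 0 by omega, pow_zero, one_smul, one_smul,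
        show k + 1 - n = (k - n) + 1 by omega, hbs]
  · apply Subtype.ext
    show p ^ (n - n) • b (n - n) = a
    rw [Nat.sub_self, pow_zero, one_smul, hb0]

theorem tateRed_isReduction (hdiv : ∀ y : J, ∃ z : J, p • z = y) (n : ℕ)
    [Module (ZMod (p ^ n)) (Submodule.torsionBy ℤ J ((p ^ n : ℕ) : ℤ))] :
    IsReduction (PadicInt.toZModPow (p := p) n) (tateRed p J n) where
  surj_ring := ZMod.ringHom_surjective _
  surj := tateRed_surjective hdiv n
  semilinear := tateRed_smul n
  ker_le x hx := by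
    obtain ⟨y, rfl⟩ := tateSeq_exists_eq_pow_smul x ((tateRed_eq_zero_iff n x).mp hx)
    refine Submodule.smul_mem_smul ?_ Submodule.mem_top
    rw [PadicInt.ker_toZModPow]
    exact Ideal.subset_span rfl

/-- If `#J[p] = p ^ r` then the Tate module has rank `r`. -/
theorem tateSeq_finrank (hdiv : ∀ y : J, ∃ z : J, p • z = y) {r : ℕ}
    (hcard : Nat.card (Submodule.torsionBy ℤ J ((p ^ 1 : ℕ) : ℤ)) = p ^ r) :
    haveI := tateSeq_finite (p := p) (J := J) (by
      have hfin : Finite (Submodule.torsionBy ℤ J ((p ^ 1 : ℕ) : ℤ)) :=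
        Nat.finite_of_card_ne_zero (by rw [hcard]; exact pow_ne_zero _ hp.out.ne_zero)
      have : {y : J | p • y = 0} = (Submodule.torsionBy ℤ J ((p ^ 1 : ℕ) : ℤ) : Set J) := by
        ext y; simp [Submodule.mem_torsionBy_iff]
      rw [this]
      exact hfin)
    Module.finrank ℤ_[p] (tateSeq p J) = r := by
  have hfin : Finite (Submodule.torsionBy ℤ J ((p ^ 1 : ℕ) : ℤ)) :=
    Nat.finite_of_card_ne_zero (by rw [hcard]; exact pow_ne_zero _ hp.out.ne_zero)
  have hfin' : {y : J | p • y = 0}.Finite := by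
    have : {y : J | p • y = 0} = (Submodule.torsionBy ℤ J ((p ^ 1 : ℕ) : ℤ) : Set J) := by
      ext y; simp [Submodule.mem_torsionBy_iff]
    rw [this]
    exact hfin
  haveI := tateSeq_finite hfin'
  haveI := tateSeq_free hfin'
  letI : Module (ZMod (p ^ 1)) (Submodule.torsionBy ℤ J ((p ^ 1 : ℕ) : ℤ)) :=
    AddCommGroup.zmodModule fun x => by
      rw [← Nat.cast_smul_eq_nsmul ℤ (p ^ 1) x]
      exact Submodule.smul_torsionBy _ x
  have h1 := (tateRed_isReduction hdiv 1).card_eq
  rw [hcard, Nat.card_zmod, pow_one] at h1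
  exact (Nat.pow_right_injective hp.out.two_le h1).symm

/-! ### group actions -/

section Action

variable {G : Type*} [Group G] [DistribMulAction G J]

variable (p J) in
/-- The action of a group on the Tate module, entry by entry. -/
def tateSeqRep : G →* Module.End ℤ_[p] (tateSeq p J) where
  toFun σ :=
    { toFun := fun x => ⟨fun n => σ • x.1 n, by
        refine ⟨by show σ • x.1 0 = 0; rw [tateSeq_zero, smul_zero], fun n => ?_⟩
        show p • σ • x.1 (n + 1) = σ • x.1 n
        rw [← tateSeq_succ x n, smul_comm]⟩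
      map_add' := fun x y => tateSeq_ext fun n => smul_add σ (x.1 n) (y.1 n)
      map_smul' := fun c x => tateSeq_ext fun n => by
        show σ • (c.appr n • x.1 n) = c.appr n • σ • x.1 n
        rw [smul_comm] }
  map_one' := LinearMap.ext fun x => tateSeq_ext fun n => one_smul G (x.1 n)
  map_mul' σ τ := LinearMap.ext fun x => tateSeq_ext fun n => mul_smul σ τ (x.1 n)

@[simp] theorem tateSeqRep_apply (σ : G) (x : tateSeq p J) (n : ℕ) :
    (tateSeqRep p J σ x).1 n = σ • x.1 n := rfl

/-- If `σ` fixes the `p ^ n`-torsion of `J` then `σ - 1` maps the Tate module into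
`𝔪 ^ n • T`. -/
theorem tateSeqRep_sub_mem {σ : G} {n : ℕ} (hσ : ∀ y : J, p ^ n • y = 0 → σ • y = y)
    (x : tateSeq p J) :
    tateSeqRep p J σ x - x ∈ (maximalIdeal ℤ_[p] ^ n) • (⊤ : Submodule ℤ_[p] (tateSeq p J)) := by
  rw [mem_maximalIdeal_pow_smul_top_iff]
  apply tateSeq_exists_eq_pow_smul
  rw [tateSeq_sub_apply, tateSeqRep_apply, hσ _ (tateSeq_pow_smul_self x n), sub_self]

/-- If `σ` fixes all `p`-power torsion of `J` then it acts trivially on the Tate module. -/
theorem tateSeqRep_eq_one {σ : G} (hσ : ∀ (n : ℕ) (y : J), p ^ n • y = 0 → σ • y = y) :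
    tateSeqRep p J σ = 1 :=
  LinearMap.ext fun x => tateSeq_ext fun n => hσ n _ (tateSeq_pow_smul_self x n)

end Action

end Fermat.Agent.TateModule
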