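import Mathlib
import Fermat.Prelude.Def_GaloisRep_Adic
import Fermat.Prelude.Def_GaloisRep_LocalConditions
import Fermat.Prelude.Def_EllipticCurve_FrobeniusTrace
import Fermat.Agent.Lib.TateModule.Seq
import Fermat.Agent.Lib.Torsion.Card
import Fermat.Agent.Lib.Torsion.Reduced

set_option autoImplicit false
set_option linter.unusedSectionVars false
set_option linter.style.haveILetI false

/-!
# The `p`-adic Tate module of an elliptic curve over `ℚ` as a Prelude `GaloisRepAdic ℤ_[p]`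

* `tateRep E p hΔ : GaloisRepAdic ℤ_[p]`, with `V = tateSeq p E(ℚ̄)` (compatible sequences of
  `p`-power torsion points) and `(ρ σ x) n = σ • x n`;
* `tateRep_isReduction`: the `n`-th entry `T → E[p^n]` is a reduction map along
  `PadicInt.toZModPow n`, Galois equivariant (`tateRep_red_smul`);
* `tateRep_toZModPow_trace`, `tateRep_toZModPow_det`: trace and determinant of `ρ σ` reduce
  to those of `σ` on `E[p^n]` (Prelude `galoisTrace`, `galoisRepModuleEnd`).
-/

noncomputable section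

namespace Fermat.Agent.TateModule

open WeierstrassCurve WeierstrassCurve.Affine WeierstrassCurve.Affine.Point
open scoped WeierstrassCurve.Affine

local notation "Qbar" => AlgebraicClosure ℚ
local notation "GQ" => (AlgebraicClosure ℚ ≃ₐ[ℚ] AlgebraicClosure ℚ)

variable (E : WeierstrassCurve ℚ)

theorem baseChange_Δ_ne_zero {E : WeierstrassCurve ℚ} (hΔ : E.Δ ≠ 0) : (E⁄Qbar).Δ ≠ 0 := by
  change (E.map (algebraMap ℚ Qbar)).Δ ≠ 0
  rw [WeierstrassCurve.map_Δ]
  simpa using hΔ

variable [DecidableEq Qbar]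

/-- A finite set of points of `E(ℚ̄)` is defined over a finite extension of `ℚ`. -/
theorem exists_finiteDimensional_fixing (S : Set (E⁄Qbar).Point) (hS : S.Finite) :
    ∃ L : IntermediateField ℚ Qbar, FiniteDimensional ℚ L ∧
      ∀ σ : GQ, (∀ x ∈ L, σ x = x) → ∀ P ∈ S, σ • P = P := by
  induction S, hS using Set.Finite.induction_on with
  | empty => exact ⟨⊥, inferInstance, fun σ _ P hP => absurd hP (Set.notMem_empty P)⟩
  | @insert P S _ _ ih =>
    obtain ⟨L, hL, hLS⟩ := ih
    have hAlg : Algebra.IsAlgebraic ℚ Qbar := AlgebraicClosure.isAlgebraic ℚ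
    rcases P with _ | ⟨x, y, h⟩
    · refine ⟨L, hL, fun σ hσ Q hQ => ?_⟩
      rcases Set.mem_insert_iff.mp hQ with rfl | hQ
      · rfl
      · exact hLS σ hσ Q hQ
    · let F : IntermediateField ℚ Qbar := IntermediateField.adjoin ℚ {x, y}
      have hfd : FiniteDimensional ℚ F :=
        IntermediateField.finiteDimensional_adjoin fun z _ => (hAlg.isAlgebraic z).isIntegral
      refine ⟨L ⊔ F, IntermediateField.finiteDimensional_sup L F, fun σ hσ Q hQ => ?_⟩
      rcases Set.mem_insert_iff.mp hQ with rfl | hQ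
      · have hx : σ x = x :=
          hσ x ((le_sup_right : F ≤ L ⊔ F) (IntermediateField.subset_adjoin ℚ _ (by simp)))
        have hy : σ y = y :=
          hσ y ((le_sup_right : F ≤ L ⊔ F) (IntermediateField.subset_adjoin ℚ _ (by simp)))
        show Point.map σ.toAlgHom (Point.some x y h) = Point.some x y h
        rw [Point.map_some]
        simp only [Point.some.injEq]
        exact ⟨hx, hy⟩
      · exact hLS σ (fun z hz => hσ z ((le_sup_left : L ≤ L ⊔ F) hz)) Q hQ

variable (p : ℕ) [hp : Fact p.Prime]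

theorem finite_p_torsion {E : WeierstrassCurve ℚ} (hΔ : E.Δ ≠ 0) (n : ℕ) :
    {y : (E⁄Qbar).Point | p ^ n • y = 0}.Finite := by
  have h1 := Fermat.Agent.Torsion.finite_torsionBy (baseChange_Δ_ne_zero hΔ) (n := p ^ n)
    (Nat.one_le_pow _ _ hp.out.pos)
  have : {y : (E⁄Qbar).Point | p ^ n • y = 0} =
      (Submodule.torsionBy ℤ (E⁄Qbar).Point ((p ^ n : ℕ) : ℤ) : Set (E⁄Qbar).Point) := by
    ext y
    simp only [Set.mem_ofPred_eq, SetLike.mem_coe, Submodule.mem_torsionBy_iff, natCast_zsmul]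
  rw [this]
  exact h1

theorem p_divisible {E : WeierstrassCurve ℚ} (hΔ : E.Δ ≠ 0) (y : (E⁄Qbar).Point) :
    ∃ z : (E⁄Qbar).Point, p • z = y :=
  Fermat.Agent.Torsion.smul_surjective (baseChange_Δ_ne_zero hΔ) hp.out.one_le y

theorem finite_p_torsion_one {E : WeierstrassCurve ℚ} (hΔ : E.Δ ≠ 0) :
    {y : (E⁄Qbar).Point | p • y = 0}.Finite := by
  have := finite_p_torsion p hΔ 1
  simpa using this

/-- **The `p`-adic Tate module** of `E / ℚ` as a Prelude `GaloisRepAdic ℤ_[p]`. -/
def tateRep (hΔ : E.Δ ≠ 0) : GaloisRepAdic ℤ_[p] where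
  V := tateSeq p (E⁄Qbar).Point
  instFree := tateSeq_free (finite_p_torsion_one p hΔ)
  instFinite := tateSeq_finite (finite_p_torsion_one p hΔ)
  finrank_eq := by
    refine tateSeq_finrank (p_divisible p hΔ) ?_
    have := Fermat.Agent.Torsion.card_torsionBy (baseChange_Δ_ne_zero hΔ) (n := p ^ 1)
      (Nat.one_le_pow _ _ hp.out.pos)
    rw [this, pow_one]
  ρ := tateSeqRep p (E⁄Qbar).Point
  isAdicContinuous := by
    intro n
    obtain ⟨L, hL, hfix⟩ := exists_finiteDimensional_fixing E _ (finite_p_torsion p hΔ n)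
    exact ⟨L, hL, fun σ hσ v => tateSeqRep_sub_mem (fun y hy => hfix σ hσ y hy) v⟩

variable {E p} (hΔ : E.Δ ≠ 0)

theorem tateRep_V : (tateRep E p hΔ).V = tateSeq p (E⁄Qbar).Point := rfl

@[simp] theorem tateRep_ρ_apply (σ : GQ) (x : tateSeq p (E⁄Qbar).Point) (n : ℕ) :
    ((tateRep E p hΔ).ρ σ x).1 n = σ • x.1 n := rfl

/-- The `n`-th entry of the Tate module is a reduction map onto `E[p^n]`. -/
theorem tateRep_isReduction (hΔ : E.Δ ≠ 0) (n : ℕ) :
    IsReduction (PadicInt.toZModPow (p := p) n) (tateRed p (E⁄Qbar).Point n) :=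
  tateRed_isReduction (p_divisible p hΔ) n

/-- Galois equivariance of the reduction maps. -/
theorem tateRep_red_smul (n : ℕ) (σ : GQ) (x : (tateRep E p hΔ).V) :
    tateRed p (E⁄Qbar).Point n ((tateRep E p hΔ).ρ σ x) = σ • tateRed p (E⁄Qbar).Point n x :=
  rfl

theorem tateRep_red_galoisRepModuleEnd (n : ℕ) (σ : GQ) (x : (tateRep E p hΔ).V) :
    tateRed p (E⁄Qbar).Point n ((tateRep E p hΔ).ρ σ x) =
      galoisRepModuleEnd ℚ (K := Qbar) E (p ^ n) σ (tateRed p (E⁄Qbar).Point n x) :=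
  rfl

/-- The trace of `ρ σ` on the Tate module reduces to the trace of `σ` on `E[p^n]`. -/
theorem tateRep_toZModPow_trace (n : ℕ) (σ : GQ) :
    PadicInt.toZModPow n ((tateRep E p hΔ).trace σ) = galoisTrace ℚ (K := Qbar) E (p ^ n) σ := by
  haveI : Module.Free ℤ_[p] (tateSeq p (E⁄Qbar).Point) := (tateRep E p hΔ).instFree
  haveI : Module.Finite ℤ_[p] (tateSeq p (E⁄Qbar).Point) := (tateRep E p hΔ).instFinite
  exact (tateRep_isReduction hΔ n).trace_eq ((tateRep E p hΔ).ρ σ)
    (galoisRepModuleEnd ℚ (K := Qbar) E (p ^ n) σ) (tateRep_red_galoisRepModuleEnd hΔ n σ)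

/-- The determinant of `ρ σ` on the Tate module reduces to the determinant of `σ` on
`E[p^n]`. -/
theorem tateRep_toZModPow_det (n : ℕ) (σ : GQ) :
    PadicInt.toZModPow n (LinearMap.det ((tateRep E p hΔ).ρ σ)) =
      LinearMap.det (galoisRepModuleEnd ℚ (K := Qbar) E (p ^ n) σ) := by
  haveI : Module.Free ℤ_[p] (tateSeq p (E⁄Qbar).Point) := (tateRep E p hΔ).instFree
  haveI : Module.Finite ℤ_[p] (tateSeq p (E⁄Qbar).Point) := (tateRep E p hΔ).instFinite
  exact (tateRep_isReduction hΔ n).det_eq ((tateRep E p hΔ).ρ σ)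
    (galoisRepModuleEnd ℚ (K := Qbar) E (p ^ n) σ) (tateRep_red_galoisRepModuleEnd hΔ n σ)

end Fermat.Agent.TateModule
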