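import Mathlib
import Fermat.Prelude.Def_GaloisRep_Adic
import Fermat.Prelude.Def_GaloisRep_LocalConditions
import Fermat.Prelude.Def_EllipticCurve_FrobeniusTrace
import Fermat.Prelude.Def_FLTPrelim_Ramification
import Fermat.Agent.Lib.TateModule.Rep

set_option autoImplicit false
set_option linter.unusedSectionVars false
set_option linter.style.haveILetI false

/-!
# Transfer of finite-level statements about `E[p^n]` to the Tate module

All statements are of the form: a property of the Galois action on `E[p^n](ℚ̄)` for all `n`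
implies the corresponding Prelude property of `tateRep E p hΔ : GaloisRepAdic ℤ_[p]`.

* `tateRep_trace_eq`, `tateRep_det_eq`, `tateRep_charpoly_eq` (and `_intCast` forms);
* `tateRep_isUnramifiedAt`;
* `tateRep_isUnipotentOnInertiaAt` (trace/det form), `tateRep_isUnipotentOnInertiaAt_of_fix`;
* `tateRep_detIsCyclotomic`.
-/

noncomputable section

namespace Fermat.Agent.TateModule

open WeierstrassCurve WeierstrassCurve.Affine WeierstrassCurve.Affine.Point Polynomial
open scoped WeierstrassCurve.Affine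

local notation "Qbar" => AlgebraicClosure ℚ
local notation "GQ" => (AlgebraicClosure ℚ ≃ₐ[ℚ] AlgebraicClosure ℚ)

section Algebra

variable {A : Type*} [CommRing A] {V : Type*} [AddCommGroup V] [Module A V]
  [Module.Free A V] [Module.Finite A V]

/-- The characteristic polynomial of an endomorphism of a free module of rank two. -/
theorem charpoly_of_finrank_two [Nontrivial A] (hV : Module.finrank A V = 2)
    (f : Module.End A V) :
    f.charpoly = X ^ 2 - C (LinearMap.trace A V f) * X + C (LinearMap.det f) := by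
  classical
  set b : Module.Basis (Fin 2) A V := Module.finBasisOfFinrankEq A V hV
  rw [← LinearMap.charpoly_toMatrix f b, Matrix.charpoly_fin_two,
    LinearMap.trace_eq_matrix_trace A b, LinearMap.det_toMatrix b]

theorem charpoly_sub_one (f : Module.End A V) :
    (f - 1).charpoly = f.charpoly.comp (X + 1) := by
  classical
  let b := Module.Free.chooseBasis A V
  rw [← LinearMap.charpoly_toMatrix (f - 1) b, ← LinearMap.charpoly_toMatrix f b, map_sub,
    LinearMap.toMatrix_one]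
  have := Matrix.charpoly_sub_scalar (LinearMap.toMatrix b b f) 1
  rw [map_one, map_one] at this
  exact this

/-- An endomorphism `f` of a free module of rank two over a domain with `(f - 1) ^ 2 = 0` has
characteristic polynomial `(X - 1) ^ 2`. -/
theorem charpoly_of_sub_one_sq [IsDomain A] (hV : Module.finrank A V = 2) (f : Module.End A V)
    (hf : (f - 1) ^ 2 = 0) : f.charpoly = (X - 1) ^ 2 := by
  have hN : IsNilpotent (f - 1) := ⟨2, hf⟩
  have h1 : f.charpoly.comp (X + 1) = X ^ 2 := by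
    rw [← charpoly_sub_one, hN.charpoly_eq_X_pow_finrank, hV]
  have h2 := congrArg (fun P : A[X] => P.comp (X - 1)) h1
  simp only [Polynomial.comp_assoc, add_comp, X_comp, one_comp, sub_add_cancel, comp_X,
    pow_comp] at h2
  exact h2

end Algebra

variable {E : WeierstrassCurve ℚ} {p : ℕ} [hp : Fact p.Prime] [DecidableEq Qbar]

/-! ### trace, determinant, characteristic polynomial -/

theorem tateRep_trace_eq (hΔ : E.Δ ≠ 0) (σ : GQ) (a : ℤ_[p])
    (h : ∀ n, galoisTrace ℚ (K := Qbar) E (p ^ n) σ = PadicInt.toZModPow n a) :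
    (tateRep E p hΔ).trace σ = a :=
  PadicInt.ext_of_toZModPow.mp fun n => by rw [tateRep_toZModPow_trace, h]

theorem tateRep_det_eq (hΔ : E.Δ ≠ 0) (σ : GQ) (d : ℤ_[p])
    (h : ∀ n, LinearMap.det (galoisRepModuleEnd ℚ (K := Qbar) E (p ^ n) σ) =
      PadicInt.toZModPow n d) :
    LinearMap.det ((tateRep E p hΔ).ρ σ) = d :=
  PadicInt.ext_of_toZModPow.mp fun n => by rw [tateRep_toZModPow_det, h]

theorem tateRep_charpoly (hΔ : E.Δ ≠ 0) (σ : GQ) :
    LinearMap.charpoly ((tateRep E p hΔ).ρ σ) =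
      X ^ 2 - C ((tateRep E p hΔ).trace σ) * X + C (LinearMap.det ((tateRep E p hΔ).ρ σ)) :=
  charpoly_of_finrank_two (tateRep E p hΔ).finrank_eq _

theorem tateRep_charpoly_eq (hΔ : E.Δ ≠ 0) (σ : GQ) (a d : ℤ_[p])
    (ha : ∀ n, galoisTrace ℚ (K := Qbar) E (p ^ n) σ = PadicInt.toZModPow n a)
    (hd : ∀ n, LinearMap.det (galoisRepModuleEnd ℚ (K := Qbar) E (p ^ n) σ) =
      PadicInt.toZModPow n d) :
    LinearMap.charpoly ((tateRep E p hΔ).ρ σ) = X ^ 2 - C a * X + C d := by
  rw [tateRep_charpoly, tateRep_trace_eq hΔ σ a ha, tateRep_det_eq hΔ σ d hd]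

/-- Integer form: if `σ` has trace `a` and determinant `d` on every `E[p^n]` (`a d : ℤ`), then
`ρ σ` has characteristic polynomial `X² - a X + d` on the Tate module. -/
theorem tateRep_charpoly_eq_intCast (hΔ : E.Δ ≠ 0) (σ : GQ) (a d : ℤ)
    (ha : ∀ n, galoisTrace ℚ (K := Qbar) E (p ^ n) σ = ((a : ℤ) : ZMod (p ^ n)))
    (hd : ∀ n, LinearMap.det (galoisRepModuleEnd ℚ (K := Qbar) E (p ^ n) σ) =
      ((d : ℤ) : ZMod (p ^ n))) :
    LinearMap.charpoly ((tateRep E p hΔ).ρ σ) =
      X ^ 2 - C ((a : ℤ) : ℤ_[p]) * X + C ((d : ℤ) : ℤ_[p]) :=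
  tateRep_charpoly_eq hΔ σ _ _ (fun n => by rw [ha, map_intCast])
    (fun n => by rw [hd, map_intCast])

/-! ### unramified primes -/

/-- If inertia at `q` acts trivially on every `E[p^n]`, the Tate module is unramified at `q`. -/
theorem tateRep_isUnramifiedAt (hΔ : E.Δ ≠ 0) (q : ℕ)
    (h : ∀ n : ℕ, GaloisRepUnramifiedAt ℚ Qbar E (p ^ n) q) :
    (tateRep E p hΔ).IsUnramifiedAt q := by
  intro P hP σ hσ
  refine tateSeqRep_eq_one fun n y hy => ?_
  have hy' : y ∈ Submodule.torsionBy ℤ (E⁄Qbar).Point ((p ^ n : ℕ) : ℤ) := by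
    rw [Submodule.mem_torsionBy_iff, natCast_zsmul]; exact hy
  exact congrArg Subtype.val (h n P hP σ hσ ⟨y, hy'⟩)

/-- Conversely, if the Tate module is unramified at `q`, inertia at `q` acts trivially on
every `E[p^n]`. -/
theorem galoisRepUnramifiedAt_of_tateRep (hΔ : E.Δ ≠ 0) (q : ℕ)
    (h : (tateRep E p hΔ).IsUnramifiedAt q) (n : ℕ) :
    GaloisRepUnramifiedAt ℚ Qbar E (p ^ n) q := by
  intro P hP σ hσ y
  obtain ⟨x, rfl⟩ := (tateRep_isReduction hΔ n).surj y
  rw [← tateRep_red_smul hΔ n σ x, h P hP σ hσ]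
  rfl

/-! ### unipotent inertia -/

/-- Trace/determinant form. -/
theorem tateRep_isUnipotentOnInertiaAt (hΔ : E.Δ ≠ 0) (q : ℕ)
    (h : ∀ P : ValuationSubring Qbar, P.LiesOverPrime q → ∀ σ ∈ P.inertiaSubgroupIn ℚ,
      ∀ n : ℕ, galoisTrace ℚ (K := Qbar) E (p ^ n) σ = 2 ∧
        LinearMap.det (galoisRepModuleEnd ℚ (K := Qbar) E (p ^ n) σ) = 1) :
    (tateRep E p hΔ).IsUnipotentOnInertiaAt q := by
  intro P hP σ hσ
  rw [tateRep_charpoly_eq hΔ σ 2 1 (fun n => by rw [(h P hP σ hσ n).1, map_ofNat])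
    (fun n => by rw [(h P hP σ hσ n).2, map_one])]
  simp only [map_ofNat, map_one]
  ring

/-- Pointwise form: `(σ - 1)² = 0` on all `p`-power torsion points. -/
theorem tateRep_isUnipotentOnInertiaAt_of_fix (hΔ : E.Δ ≠ 0) (q : ℕ)
    (h : ∀ P : ValuationSubring Qbar, P.LiesOverPrime q → ∀ σ ∈ P.inertiaSubgroupIn ℚ,
      ∀ (n : ℕ) (y : (E⁄Qbar).Point), p ^ n • y = 0 → σ • (σ • y - y) = σ • y - y) :
    (tateRep E p hΔ).IsUnipotentOnInertiaAt q := by
  intro P hP σ hσ
  refine charpoly_of_sub_one_sq (tateRep E p hΔ).finrank_eq _ ?_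
  refine LinearMap.ext fun x => tateSeq_ext fun n => ?_
  have := h P hP σ hσ n (x.1 n) (tateSeq_pow_smul_self x n)
  rw [pow_two]
  show σ • (σ • x.1 n - x.1 n) - (σ • x.1 n - x.1 n) = 0
  rw [this, sub_self]

/-! ### the determinant is the cyclotomic character -/

theorem mem_span_natCast_pow_iff (n : ℕ) (x : ℤ_[p]) :
    x ∈ Ideal.span {((p ^ n : ℕ) : ℤ_[p])} ↔ PadicInt.toZModPow n x = 0 := by
  rw [Nat.cast_pow, ← PadicInt.ker_toZModPow, RingHom.mem_ker]

theorem tateRep_detIsCyclotomic (hΔ : E.Δ ≠ 0)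
    (h : ∀ (n : ℕ) (σ : GQ) (a : ℕ), (∀ μ : Qbar, μ ^ p ^ n = 1 → σ μ = μ ^ a) →
      LinearMap.det (galoisRepModuleEnd ℚ (K := Qbar) E (p ^ n) σ) = (a : ZMod (p ^ n))) :
    (tateRep E p hΔ).DetIsCyclotomic p := by
  refine ⟨?_, fun n σ a ha => ?_⟩
  · rw [PadicInt.maximalIdeal_eq_span_p]
    exact Ideal.subset_span rfl
  · rw [mem_span_natCast_pow_iff, map_sub, tateRep_toZModPow_det, h n σ a ha, map_natCast,
      sub_self]

end Fermat.Agent.TateModule
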