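import Mathlib
import Fermat.Agent.Lib.TateModule.Local
import Fermat.Agent.Lib.FrobTrace.MainAll
import Fermat.Agent.Lib.FrobDensity.Bridge

set_option autoImplicit false
set_option linter.unusedSectionVars false
set_option linter.style.haveILetI false

/-!
# The Tate module of an integral Weierstrass model: global properties

`W : WeierstrassCurve ℤ`, `Δ ≠ 0`, `p` prime, `tateRepOfModel W p hΔ : GaloisRepAdic ℤ_[p]`:

* `tateRepOfModel_charpoly_frobenius`: `charpoly (ρ Frob_ℓ) = X² - a_ℓ X + ℓ` at EVERY good `ℓ ≠ p`;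
* `tateRepOfModel_isUnramifiedAt`: unramified at every good `q ≠ p`;
* `tateRepOfModel_detIsCyclotomic`: Prelude `DetIsCyclotomic p`;
* `tateRepOfModel_det_complexConjugation`: oddness.
-/

noncomputable section

namespace Fermat.Agent.TateModule

open WeierstrassCurve WeierstrassCurve.Affine WeierstrassCurve.Affine.Point Polynomial
open scoped WeierstrassCurve.Affine

local notation "Qbar" => AlgebraicClosure ℚ
local notation "GQ" => (AlgebraicClosure ℚ ≃ₐ[ℚ] AlgebraicClosure ℚ)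

theorem map_Δ_ne_zero_of_model {W : WeierstrassCurve ℤ} (hΔ : W.Δ ≠ 0) :
    (W.map (Int.castRingHom ℚ)).Δ ≠ 0 := by
  rw [WeierstrassCurve.map_Δ]
  simpa using hΔ

variable (W : WeierstrassCurve ℤ) (p : ℕ) [hp : Fact p.Prime] [DecidableEq Qbar]

/-- The `p`-adic Tate module of the generic fibre of an integral Weierstrass model. -/
def tateRepOfModel (hΔ : W.Δ ≠ 0) : GaloisRepAdic ℤ_[p] :=
  tateRep (W.map (Int.castRingHom ℚ)) p (map_Δ_ne_zero_of_model hΔ)

variable {W p}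

/-- **Frobenius characteristic polynomial** at every good prime `ℓ ≠ p`. -/
theorem tateRepOfModel_charpoly_frobenius (hΔ : W.Δ ≠ 0) {ℓ : ℕ} [Fact ℓ.Prime] (hℓp : ℓ ≠ p)
    (hgood : W.IsGoodPrimeFor ℓ) (A : ValuationSubring Qbar) (hA : A.LiesOverPrime ℓ)
    (τ : GQ) (hτ : A.IsFrobeniusAt τ ℓ) :
    LinearMap.charpoly ((tateRepOfModel W p hΔ).ρ τ) =
      X ^ 2 - C ((W.apOfModel ℓ : ℤ) : ℤ_[p]) * X + C ((ℓ : ℤ_[p])) := by
  have h := fun j => Fermat.Agent.FrobTrace.galois_trace_det_frobenius_all W (p := p) hℓp hgood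
    A hA τ hτ j
  have := tateRep_charpoly_eq_intCast (map_Δ_ne_zero_of_model hΔ) (p := p) τ (W.apOfModel ℓ)
    (ℓ : ℤ) (fun n => (h n).1) (fun n => (h n).2)
  rw [Int.cast_natCast] at this
  exact this

theorem tateRepOfModel_trace_frobenius (hΔ : W.Δ ≠ 0) {ℓ : ℕ} [Fact ℓ.Prime] (hℓp : ℓ ≠ p)
    (hgood : W.IsGoodPrimeFor ℓ) (A : ValuationSubring Qbar) (hA : A.LiesOverPrime ℓ)
    (τ : GQ) (hτ : A.IsFrobeniusAt τ ℓ) :
    (tateRepOfModel W p hΔ).trace τ = ((W.apOfModel ℓ : ℤ) : ℤ_[p]) := by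
  have h := fun j => Fermat.Agent.FrobTrace.galois_trace_det_frobenius_all W (p := p) hℓp hgood
    A hA τ hτ j
  exact tateRep_trace_eq (map_Δ_ne_zero_of_model hΔ) τ _ fun n => by rw [(h n).1, map_intCast]

theorem tateRepOfModel_det_frobenius (hΔ : W.Δ ≠ 0) {ℓ : ℕ} [Fact ℓ.Prime] (hℓp : ℓ ≠ p)
    (hgood : W.IsGoodPrimeFor ℓ) (A : ValuationSubring Qbar) (hA : A.LiesOverPrime ℓ)
    (τ : GQ) (hτ : A.IsFrobeniusAt τ ℓ) :
    LinearMap.det ((tateRepOfModel W p hΔ).ρ τ) = (ℓ : ℤ_[p]) := by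
  have h := fun j => Fermat.Agent.FrobTrace.galois_trace_det_frobenius_all W (p := p) hℓp hgood
    A hA τ hτ j
  exact tateRep_det_eq (map_Δ_ne_zero_of_model hΔ) τ _ fun n => by
    rw [(h n).2, Int.cast_natCast, map_natCast]

/-- **`det = ` cyclotomic character** (Prelude `DetIsCyclotomic`). -/
theorem tateRepOfModel_detIsCyclotomic (hΔ : W.Δ ≠ 0) :
    (tateRepOfModel W p hΔ).DetIsCyclotomic p :=
  tateRep_detIsCyclotomic (map_Δ_ne_zero_of_model hΔ) fun n σ a ha =>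
    Fermat.Agent.FrobTrace.galois_det_eq_natCast W hΔ n σ a ha

/-- Inertia at a good prime `q ≠ p` acts trivially on `E[p^n]`. -/
theorem galoisRepUnramifiedAt_of_good {q : ℕ} (hq : q.Prime) (hqp : q ≠ p)
    (hgood : W.IsGoodPrimeFor q) (n : ℕ) :
    GaloisRepUnramifiedAt ℚ Qbar (W.map (Int.castRingHom ℚ)) (p ^ n) q := by
  classical
  intro A hA σ hσ y
  haveI : Fact q.Prime := ⟨hq⟩
  haveI : CharP (IsLocalRing.ResidueField A) q := Fermat.Agent.FrobTrace.charP_residueField A hA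
  letI : Algebra (ZMod q) (IsLocalRing.ResidueField A) := ZMod.algebra _ q
  obtain ⟨red, hinj, hfrob⟩ := Fermat.Agent.FrobTrace.exists_reduction W hgood A hA
  obtain ⟨τ, hτ, -, -⟩ := Fermat.Agent.FrobBridge.exists_isFrobeniusAt_of_liesOver A q hq hA
  have hστ : A.IsFrobeniusAt (σ * τ) q :=
    Fermat.Agent.FrobBridge.isFrobeniusAt_mul_of_mem_inertiaSubgroupIn A q σ τ hσ hτ
  -- `red (σ • P) = red P` for every point `P`
  have hred : ∀ P : ((W.map (Int.castRingHom ℚ))⁄Qbar).Point, red (σ • P) = red P := by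
    intro P
    have h1 := hfrob (σ * τ) hστ (τ⁻¹ • P)
    have h2 := hfrob τ hτ (τ⁻¹ • P)
    rw [mul_smul, smul_inv_smul] at h1
    rw [smul_inv_smul] at h2
    rw [h1, h2]
  have hy : (p ^ n) • (y : ((W.map (Int.castRingHom ℚ))⁄Qbar).Point) = 0 := by
    have := y.2
    rwa [Submodule.mem_torsionBy_iff, natCast_zsmul] at this
  have hnd : ¬ q ∣ p ^ n := fun h =>
    hqp ((Nat.prime_dvd_prime_iff_eq hq hp.out).mp (hq.dvd_of_dvd_pow h))
  apply Subtype.ext
  have h3 : σ • (y : ((W.map (Int.castRingHom ℚ))⁄Qbar).Point) - y = 0 := by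
    refine hinj (p ^ n) hnd _ ?_ ?_
    · rw [nsmul_sub, hy, sub_zero, smul_comm, hy]
      rfl
    · rw [map_sub, hred, sub_self]
  exact sub_eq_zero.mp h3

/-- **Unramified at good primes** `q ≠ p`. -/
theorem tateRepOfModel_isUnramifiedAt (hΔ : W.Δ ≠ 0) {q : ℕ} (hq : q.Prime) (hqp : q ≠ p)
    (hgood : W.IsGoodPrimeFor q) : (tateRepOfModel W p hΔ).IsUnramifiedAt q :=
  tateRep_isUnramifiedAt (map_Δ_ne_zero_of_model hΔ) q fun n =>
    galoisRepUnramifiedAt_of_good hq hqp hgood n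

end Fermat.Agent.TateModule
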