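import Mathlib
import Fermat.Agent.Lib.TateModule.Reduction

set_option autoImplicit false
set_option linter.unusedSectionVars false

/-!
# A reduction map identifies the base change with the target

`h : IsReduction φ π` (`φ : O →+* R`, `π : T →+ V`, `T` finite free over `O`), `B` an `O`-algebra
with a ring isomorphism `β : B ≃+* R` such that `β ∘ algebraMap = φ`.  Then
`B ⊗[O] T ≃+ V`, `c ⊗ x ↦ β c • π x`, compatibly with scalars and with base-changed
endomorphisms.
-/

noncomputable section

namespace Fermat.Agent.TateModule

open Module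
open scoped TensorProduct

variable {O R : Type*} [CommRing O] [CommRing R] {φ : O →+* R}
  {T V : Type*} [AddCommGroup T] [Module O T] [AddCommGroup V] [Module R V] {π : T →+ V}
  [Module.Free O T] [Module.Finite O T]
  {B : Type*} [CommRing B] [Algebra O B]

namespace IsReduction

variable (h : IsReduction φ π) (β : B ≃+* R)

/-- The identification `B ⊗[O] T ≃+ V` attached to a reduction map. -/
def tensorEquiv : B ⊗[O] T ≃+ V :=
  (((Module.Free.chooseBasis O T).baseChange B).repr.toAddEquiv.trans
    (Finsupp.mapRange.addEquiv (ι := Module.Free.ChooseBasisIndex O T) β.toAddEquiv)).trans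
    (h.basis (Module.Free.chooseBasis O T)).repr.symm.toAddEquiv

theorem repr_tensorEquiv (z : B ⊗[O] T) (i : Module.Free.ChooseBasisIndex O T) :
    (h.basis (Module.Free.chooseBasis O T)).repr (h.tensorEquiv β z) i =
      β (((Module.Free.chooseBasis O T).baseChange B).repr z i) := by
  simp [tensorEquiv]

theorem tensorEquiv_ext {v w : V}
    (hvw : ∀ i, (h.basis (Module.Free.chooseBasis O T)).repr v i =
      (h.basis (Module.Free.chooseBasis O T)).repr w i) : v = w :=
  (h.basis (Module.Free.chooseBasis O T)).repr.injective (Finsupp.ext hvw)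

variable (hβ : ∀ a : O, β (algebraMap O B a) = φ a)
include hβ

theorem tensorEquiv_tmul (c : B) (x : T) : h.tensorEquiv β (c ⊗ₜ[O] x) = β c • π x := by
  refine h.tensorEquiv_ext fun i => ?_
  have h1 : (h.basis (Module.Free.chooseBasis O T)).repr (β c • π x) i =
      β c * φ ((Module.Free.chooseBasis O T).repr x i) := by
    rw [LinearEquiv.map_smul, Finsupp.smul_apply, h.basis_repr, smul_eq_mul]
  rw [repr_tensorEquiv, Basis.baseChange_repr_tmul, Algebra.smul_def, map_mul, hβ, h1, mul_comm]

omit hβ in
theorem tensorEquiv_smul (c : B) (z : B ⊗[O] T) :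
    h.tensorEquiv β (c • z) = β c • h.tensorEquiv β z := by
  refine h.tensorEquiv_ext fun i => ?_
  have h1 : (h.basis (Module.Free.chooseBasis O T)).repr (β c • h.tensorEquiv β z) i =
      β c * β (((Module.Free.chooseBasis O T).baseChange B).repr z i) := by
    rw [LinearEquiv.map_smul, Finsupp.smul_apply, repr_tensorEquiv, smul_eq_mul]
  have h2 : ((Module.Free.chooseBasis O T).baseChange B).repr (c • z) i =
      c * ((Module.Free.chooseBasis O T).baseChange B).repr z i := by
    rw [LinearEquiv.map_smul, Finsupp.smul_apply, smul_eq_mul]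
  rw [repr_tensorEquiv, h2, map_mul, h1]

theorem tensorEquiv_one_tmul (x : T) : h.tensorEquiv β ((1 : B) ⊗ₜ[O] x) = π x := by
  rw [h.tensorEquiv_tmul β hβ, map_one, one_smul]

/-- Compatibility with endomorphisms. -/
theorem tensorEquiv_baseChange (f : T →ₗ[O] T) (g : V →ₗ[R] V) (hfg : ∀ x, π (f x) = g (π x))
    (z : B ⊗[O] T) : h.tensorEquiv β (f.baseChange B z) = g (h.tensorEquiv β z) := by
  induction z using TensorProduct.induction_on with
  | zero => simp
  | tmul c x =>
    rw [LinearMap.baseChange_tmul, h.tensorEquiv_tmul β hβ, h.tensorEquiv_tmul β hβ, hfg,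
      map_smul]
  | add x y hx hy => rw [map_add, map_add, map_add, map_add, hx, hy]

end IsReduction

end Fermat.Agent.TateModule
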