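import Mathlib
import Fermat.Prelude.Def_GaloisRep_Adic
import Fermat.Prelude.Def_GaloisRep_Residual
import Fermat.Prelude.Def_EllipticCurve_FrobeniusTrace
import Fermat.Agent.Lib.TateModule.Local
import Fermat.Agent.Lib.TateModule.ReductionTensor

set_option autoImplicit false
set_option linter.unusedSectionVars false
set_option linter.style.haveILetI false

/-!
# The residual representation of the Tate module is `E[p]`

* `tateRedOne p J : tateSeq p J →+ J[p]` (first entry), a reduction map along `PadicInt.toZMod`;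
* `tateResidualEquiv hΔ : (tateRep E p hΔ).residual.V ≃+ E[p]`, semilinear along
  `PadicInt.residueField : ResidueField ℤ_[p] ≃+* ZMod p` and Galois equivariant;
* `tateRep_residual_isIrreducible`: if `E[p]` is irreducible (Prelude `GaloisRepIsIrreducible`)
  then the residual representation of the Tate module is irreducible.
-/

noncomputable section

namespace Fermat.Agent.TateModule

open WeierstrassCurve WeierstrassCurve.Affine WeierstrassCurve.Affine.Point Polynomial
open IsLocalRing
open scoped WeierstrassCurve.Affine TensorProduct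

local notation "Qbar" => AlgebraicClosure ℚ
local notation "GQ" => (AlgebraicClosure ℚ ≃ₐ[ℚ] AlgebraicClosure ℚ)

section Abstract

variable (p : ℕ) [hp : Fact p.Prime] (J : Type*) [AddCommGroup J]

/-- The first entry of a compatible sequence, as a `p`-torsion element. -/
def tateRedOne : tateSeq p J →+ Submodule.torsionBy ℤ J ((p : ℕ) : ℤ) where
  toFun x := ⟨x.1 1, by
    rw [Submodule.mem_torsionBy_iff, natCast_zsmul]
    have := tateSeq_pow_smul_self x 1
    rwa [pow_one] at this⟩
  map_zero' := rfl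
  map_add' _ _ := rfl

variable {p J}

@[simp] theorem tateRedOne_coe (x : tateSeq p J) : ((tateRedOne p J x : _) : J) = x.1 1 := rfl

theorem toZMod_eq_appr_one (c : ℤ_[p]) : PadicInt.toZMod c = ((c.appr 1 : ℕ) : ZMod p) := by
  have h1 := PadicInt.appr_spec 1 c
  rw [pow_one, ← PadicInt.maximalIdeal_eq_span_p, ← PadicInt.ker_toZMod, RingHom.mem_ker,
    map_sub, map_natCast, sub_eq_zero] at h1
  exact h1

theorem tateRedOne_smul [Module (ZMod p) (Submodule.torsionBy ℤ J ((p : ℕ) : ℤ))]
    (c : ℤ_[p]) (x : tateSeq p J) :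
    tateRedOne p J (c • x) = PadicInt.toZMod c • tateRedOne p J x := by
  rw [toZMod_eq_appr_one, Nat.cast_smul_eq_nsmul]
  rfl

theorem tateRedOne_isReduction (hdiv : ∀ y : J, ∃ z : J, p • z = y)
    [Module (ZMod p) (Submodule.torsionBy ℤ J ((p : ℕ) : ℤ))] :
    IsReduction (PadicInt.toZMod (p := p)) (tateRedOne p J) where
  surj_ring := ZMod.ringHom_surjective _
  surj := by
    rintro ⟨a, ha⟩
    have ha' : a ∈ Submodule.torsionBy ℤ J ((p ^ 1 : ℕ) : ℤ) := by
      rw [pow_one]; exact ha
    obtain ⟨x, hx⟩ := tateRed_surjective hdiv 1 ⟨a, ha'⟩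
    refine ⟨x, Subtype.ext ?_⟩
    have := congrArg Subtype.val hx
    exact this
  semilinear := tateRedOne_smul
  ker_le x hx := by
    have hx1 : x.1 1 = 0 := congrArg Subtype.val hx
    obtain ⟨y, rfl⟩ := tateSeq_exists_eq_pow_smul x hx1
    refine Submodule.smul_mem_smul ?_ Submodule.mem_top
    rw [pow_one, PadicInt.ker_toZMod, PadicInt.maximalIdeal_eq_span_p]
    exact Ideal.subset_span rfl

end Abstract

variable {E : WeierstrassCurve ℚ} {p : ℕ} [hp : Fact p.Prime] [DecidableEq Qbar]

theorem tateRep_isReductionOne (hΔ : E.Δ ≠ 0) :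
    IsReduction (PadicInt.toZMod (p := p)) (tateRedOne p (E⁄Qbar).Point) :=
  tateRedOne_isReduction (p_divisible p hΔ)

theorem tateRep_redOne_smul (hΔ : E.Δ ≠ 0) (σ : GQ) (x : (tateRep E p hΔ).V) :
    tateRedOne p (E⁄Qbar).Point ((tateRep E p hΔ).ρ σ x) =
      galoisRepModuleEnd ℚ (K := Qbar) E p σ (tateRedOne p (E⁄Qbar).Point x) :=
  rfl

/-- The identification of the residual representation of the Tate module with `E[p]`. -/
def tateResidualEquiv (hΔ : E.Δ ≠ 0) :
    (tateRep E p hΔ).residual.V ≃+ Submodule.torsionBy ℤ (E⁄Qbar).Point ((p : ℕ) : ℤ) :=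
  haveI : Module.Free ℤ_[p] (tateSeq p (E⁄Qbar).Point) := (tateRep E p hΔ).instFree
  haveI : Module.Finite ℤ_[p] (tateSeq p (E⁄Qbar).Point) := (tateRep E p hΔ).instFinite
  (tateRep_isReductionOne hΔ).tensorEquiv (B := ResidueField ℤ_[p]) PadicInt.residueField

theorem residueField_algebraMap (a : ℤ_[p]) :
    PadicInt.residueField (algebraMap ℤ_[p] (ResidueField ℤ_[p]) a) = PadicInt.toZMod a := rfl

theorem tateResidualEquiv_tmul (hΔ : E.Δ ≠ 0) (c : ResidueField ℤ_[p])
    (x : tateSeq p (E⁄Qbar).Point) :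
    tateResidualEquiv hΔ (c ⊗ₜ[ℤ_[p]] x) =
      PadicInt.residueField c • tateRedOne p (E⁄Qbar).Point x := by
  haveI : Module.Free ℤ_[p] (tateSeq p (E⁄Qbar).Point) := (tateRep E p hΔ).instFree
  haveI : Module.Finite ℤ_[p] (tateSeq p (E⁄Qbar).Point) := (tateRep E p hΔ).instFinite
  exact (tateRep_isReductionOne hΔ).tensorEquiv_tmul PadicInt.residueField
    residueField_algebraMap c x

theorem tateResidualEquiv_smul (hΔ : E.Δ ≠ 0) (c : ResidueField ℤ_[p])
    (v : (tateRep E p hΔ).residual.V) :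
    tateResidualEquiv hΔ (c • v) = PadicInt.residueField c • tateResidualEquiv hΔ v := by
  haveI : Module.Free ℤ_[p] (tateSeq p (E⁄Qbar).Point) := (tateRep E p hΔ).instFree
  haveI : Module.Finite ℤ_[p] (tateSeq p (E⁄Qbar).Point) := (tateRep E p hΔ).instFinite
  exact (tateRep_isReductionOne hΔ).tensorEquiv_smul PadicInt.residueField c v

/-- Galois equivariance. -/
theorem tateResidualEquiv_ρ (hΔ : E.Δ ≠ 0) (σ : GQ) (v : (tateRep E p hΔ).residual.V) :
    tateResidualEquiv hΔ ((tateRep E p hΔ).residual.ρ σ v) =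
      galoisRepModuleEnd ℚ (K := Qbar) E p σ (tateResidualEquiv hΔ v) := by
  haveI : Module.Free ℤ_[p] (tateSeq p (E⁄Qbar).Point) := (tateRep E p hΔ).instFree
  haveI : Module.Finite ℤ_[p] (tateSeq p (E⁄Qbar).Point) := (tateRep E p hΔ).instFinite
  exact (tateRep_isReductionOne hΔ).tensorEquiv_baseChange PadicInt.residueField
    residueField_algebraMap ((tateRep E p hΔ).ρ σ) (galoisRepModuleEnd ℚ (K := Qbar) E p σ)
    (tateRep_redOne_smul hΔ σ) v

theorem tateResidualEquiv_ρ_smul (hΔ : E.Δ ≠ 0) (σ : GQ) (v : (tateRep E p hΔ).residual.V) :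
    tateResidualEquiv hΔ ((tateRep E p hΔ).residual.ρ σ v) = σ • tateResidualEquiv hΔ v :=
  tateResidualEquiv_ρ hΔ σ v

/-- If `E[p]` is an irreducible Galois module, the residual representation of the Tate module
is irreducible. -/
theorem tateRep_residual_isIrreducible (hΔ : E.Δ ≠ 0)
    (hirr : GaloisRepIsIrreducible (K := Qbar) ℚ E p) :
    (tateRep E p hΔ).residual.IsIrreducible := by
  intro W hW
  let e := tateResidualEquiv (p := p) hΔ
  let N : Submodule (ZMod p) (Submodule.torsionBy ℤ (E⁄Qbar).Point ((p : ℕ) : ℤ)) :=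
    { carrier := e '' (W : Set (tateRep E p hΔ).residual.V)
      add_mem' := by
        rintro _ _ ⟨a, ha, rfl⟩ ⟨b, hb, rfl⟩
        exact ⟨a + b, W.add_mem ha hb, map_add e a b⟩
      zero_mem' := ⟨0, W.zero_mem, map_zero e⟩
      smul_mem' := by
        rintro r _ ⟨a, ha, rfl⟩
        refine ⟨PadicInt.residueField.symm r • a, W.smul_mem _ ha, ?_⟩
        rw [tateResidualEquiv_smul, RingEquiv.apply_symm_apply] }
  have hN : IsGaloisStable (K := Qbar) ℚ N := by
    rintro σ _ ⟨a, ha, rfl⟩
    exact ⟨(tateRep E p hΔ).residual.ρ σ a, hW σ a ha, tateResidualEquiv_ρ_smul hΔ σ a⟩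
  rcases hirr.2 N hN with h | h
  · left
    rw [eq_bot_iff]
    intro w hw
    have h1 : e w ∈ N := ⟨w, hw, rfl⟩
    rw [h, Submodule.mem_bot] at h1
    rw [Submodule.mem_bot]
    exact (map_eq_zero_iff e e.injective).mp h1
  · right
    rw [eq_top_iff]
    intro v _
    have h1 : e v ∈ N := by rw [h]; exact Submodule.mem_top
    obtain ⟨w, hw, hwv⟩ := h1
    rw [← e.injective hwv]
    exact hw

end Fermat.Agent.TateModule
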