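import Mathlib
import Fermat.Agent.Lib.TateModule.Model
import Fermat.Agent.Lib.TateModule.Residual
import Fermat.Agent.S59.AbsIrr

set_option autoImplicit false
set_option linter.unusedSectionVars false
set_option linter.style.haveILetI false

/-!
# The residual representation of the Tate module of an integral model

`W : WeierstrassCurve ℤ`, `Δ ≠ 0`, `p` prime, `ρ = tateRepOfModel W p hΔ`:

* `tateRepOfModel_det_complexConjugation`: `det ρ(c) = -1`;
* `tateRepOfModel_residual_det_complexConjugation`: `det ρ̄(c) = -1`;
* `tateRepOfModel_residual_isIrreducible`: `ρ̄` is irreducible if `W.ModRepIsIrreducible p`;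
* `tateRepOfModel_residual_isAbsolutelyIrreducible` (`p` odd);
* `tateRepOfModel_residual_isUnramifiedAt`: `ρ̄` unramified at good `q ≠ p`.
-/

noncomputable section

namespace Fermat.Agent.TateModule

open WeierstrassCurve WeierstrassCurve.Affine WeierstrassCurve.Affine.Point Polynomial
open IsLocalRing
open scoped WeierstrassCurve.Affine TensorProduct

local notation "Qbar" => AlgebraicClosure ℚ
local notation "GQ" => (AlgebraicClosure ℚ ≃ₐ[ℚ] AlgebraicClosure ℚ)

section General

variable {A : Type} [CommRing A] [IsLocalRing A]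

/-- The determinant of the residual representation is the residue of the determinant. -/
theorem residual_det (ρ : GaloisRepAdic A) (σ : GQ) :
    LinearMap.det (ρ.residual.ρ σ) = residue A (LinearMap.det (ρ.ρ σ)) := by
  show LinearMap.det ((ρ.ρ σ).baseChange (ResidueField A)) = _
  rw [LinearMap.det_baseChange]
  rfl

/-- The residual representation of an unramified representation is unramified. -/
theorem residual_isUnramifiedAt (ρ : GaloisRepAdic A) {q : ℕ} (h : ρ.IsUnramifiedAt q) :
    ρ.residual.IsUnramifiedAt q := by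
  intro P hP σ hσ
  show (ρ.ρ σ).baseChange (ResidueField A) = 1
  rw [h P hP σ hσ, LinearMap.baseChange_one]

end General

variable {W : WeierstrassCurve ℤ} {p : ℕ} [hp : Fact p.Prime] [DecidableEq Qbar]

/-- **Oddness**: complex conjugation has determinant `-1` on the Tate module. -/
theorem tateRepOfModel_det_complexConjugation (hΔ : W.Δ ≠ 0) :
    LinearMap.det ((tateRepOfModel W p hΔ).ρ complexConjugation) = -1 :=
  tateRep_det_eq (map_Δ_ne_zero_of_model hΔ) complexConjugation (-1) fun n => by
    rw [Fermat.Agent.FrobTrace.galois_det_complexConjugation W hΔ n, map_neg, map_one]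

theorem tateRepOfModel_residual_det_complexConjugation (hΔ : W.Δ ≠ 0) :
    LinearMap.det ((tateRepOfModel W p hΔ).residual.ρ complexConjugation) = -1 := by
  rw [residual_det, tateRepOfModel_det_complexConjugation, map_neg, map_one]

theorem tateRepOfModel_residual_isIrreducible (hΔ : W.Δ ≠ 0)
    (hirr : GaloisRepIsIrreducible (K := Qbar) ℚ (W.map (Int.castRingHom ℚ)) p) :
    (tateRepOfModel W p hΔ).residual.IsIrreducible :=
  tateRep_residual_isIrreducible (map_Δ_ne_zero_of_model hΔ) hirr

theorem two_ne_zero_residueField (hp2 : p ≠ 2) : (2 : ResidueField ℤ_[p]) ≠ 0 := by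
  intro h
  have h1 : PadicInt.residueField (2 : ResidueField ℤ_[p]) = 0 := by rw [h, _root_.map_zero]
  rw [map_ofNat] at h1
  have h2 : ((2 : ℕ) : ZMod p) = 0 := by exact_mod_cast h1
  rw [ZMod.natCast_eq_zero_iff] at h2
  exact hp2 ((Nat.prime_dvd_prime_iff_eq hp.out Nat.prime_two).mp h2)

/-- **Absolute irreducibility** of the residual representation (`p` odd). -/
theorem tateRepOfModel_residual_isAbsolutelyIrreducible (hΔ : W.Δ ≠ 0) (hp2 : p ≠ 2)
    (hirr : GaloisRepIsIrreducible (K := Qbar) ℚ (W.map (Int.castRingHom ℚ)) p) :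
    (tateRepOfModel W p hΔ).residual.IsAbsolutelyIrreducible :=
  Fermat.Agent.S59.isAbsolutelyIrreducible_of_det_conj (two_ne_zero_residueField hp2) _
    (tateRepOfModel_residual_isIrreducible hΔ hirr)
    (tateRepOfModel_residual_det_complexConjugation hΔ)

theorem tateRepOfModel_residual_isUnramifiedAt (hΔ : W.Δ ≠ 0) {q : ℕ} (hq : q.Prime)
    (hqp : q ≠ p) (hgood : W.IsGoodPrimeFor q) :
    (tateRepOfModel W p hΔ).residual.IsUnramifiedAt q :=
  residual_isUnramifiedAt _ (tateRepOfModel_isUnramifiedAt hΔ hq hqp hgood)

end Fermat.Agent.TateModule
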